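/-
S26 P7 (D0UB), bridge preparation (helper7605), Mathlib only + `D0UB/Basic` + `S26/Center7605`.

The concrete "system of local rings" of an integral `K`-scheme `f : X ⟶ Spec K`:
`F := X.functionField` with the `K`-algebra structure `funAlgebra f` (NOT an instance; use
`letI := funAlgebra f`), points `P := X`, `O x := localRing f x` = image of the stalk at `x`.

* `hasCenters` : (H4) for `f` universally closed (e.g. proper).
-/
import Fermat.Agent.S26.D0UB.Basic
import Fermat.Agent.S26.Center7605

set_option autoImplicit false

universe u

open CategoryTheory AlgebraicGeometry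

namespace Fermat.Agent.S26.D0UB.Bridge

variable {K : Type u} [Field K] {X : Scheme.{u}} [IsIntegral X]

/-- The `K`-algebra structure on the function field of an integral `K`-scheme. -/
@[reducible]
noncomputable def funAlgebra (f : X ⟶ Spec (CommRingCat.of K)) : Algebra K X.functionField :=
  (Center7605.constHom f).hom.toAlgebra

/-- The canonical (injective) map from the stalk at `x` to the function field
(`= algebraMap`, Mathlib's `stalkFunctionFieldAlgebra`). -/
noncomputable def stalkToFun (x : X) : X.presheaf.stalk x →+* X.functionField :=
  algebraMap (X.presheaf.stalk x) X.functionField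

theorem stalkToFun_injective (x : X) : Function.Injective (stalkToFun x) :=
  IsFractionRing.injective (X.presheaf.stalk x) X.functionField

theorem stalkToFun_germ {U : X.Opens} [Nonempty U] {x : X} (hx : x ∈ U) (a : Γ(X, U)) :
    stalkToFun x (X.presheaf.germ U x hx a) = X.germToFunctionField U a :=
  Scheme.algebraMap_germ_eq_germToFunctionField X hx a

theorem constHom_apply_eq (f : X ⟶ Spec (CommRingCat.of K)) (x : X) (c : K) :
    Center7605.constHom f c =
      stalkToFun x (X.presheaf.germ ⊤ x trivial
        (f.appTop ((Scheme.ΓSpecIso (CommRingCat.of K)).inv c))) := by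
  rw [Center7605.constHom_eq]
  have h : X.presheaf.germ ⊤ (genericPoint X) trivial =
      X.presheaf.germ ⊤ x trivial ≫
        X.presheaf.stalkSpecializes ((genericPoint_spec X).specializes (Set.mem_univ x)) :=
    (TopCat.Presheaf.germ_stalkSpecializes _ _ _).symm
  rw [h]
  rfl

/-- The local ring of `x` as a `K`-subalgebra of the function field. -/
noncomputable def localRing (f : X ⟶ Spec (CommRingCat.of K)) (x : X) :
    @Subalgebra K X.functionField _ _ (funAlgebra f) :=
  letI := funAlgebra f
  { (stalkToFun x).range with
    algebraMap_mem' := fun c => ⟨_, (constHom_apply_eq f x c).symm⟩ }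

theorem mem_localRing (f : X ⟶ Spec (CommRingCat.of K)) (x : X) (y : X.functionField) :
    y ∈ localRing f x ↔ ∃ s : X.presheaf.stalk x, stalkToFun x s = y := Iff.rfl

/-- (H4) existence of centres on a universally closed integral `K`-scheme. -/
theorem hasCenters (f : X ⟶ Spec (CommRingCat.of K)) [UniversallyClosed f] :
    letI := funAlgebra f
    HasCenters (localRing f) := by
  let _ := funAlgebra f
  intro Ov hOv
  obtain ⟨x, hx⟩ := Center7605.exists_stalk_le f Ov hOv
  refine ⟨x, fun y hy => ?_⟩
  obtain ⟨s, rfl⟩ := hy
  exact hx s

end Fermat.Agent.S26.D0UB.Bridge
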