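/-
S26 P7 (D0UB), bridge preparation (helper7605): (H1) denominators for the concrete system of
local rings of an integral `K`-scheme whose stalks are UFDs (uses leaf L0 `exists_isDenom_of_ufd`).
-/
import Fermat.Agent.S26.D0UB.DenomUFD
import Fermat.Agent.S26.D0UB.Bridge.System7605

set_option autoImplicit false

universe u

open CategoryTheory AlgebraicGeometry

namespace Fermat.Agent.S26.D0UB.Bridge

variable {K : Type u} [Field K] {X : Scheme.{u}} [IsIntegral X]

/-- The stalk at `x` is isomorphic to the local ring `localRing f x`. -/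
noncomputable def stalkEquivLocalRing (f : X ⟶ Spec (CommRingCat.of K)) (x : X) :
    X.presheaf.stalk x ≃+* localRing f x :=
  RingEquiv.ofBijective
    ((stalkToFun x).codRestrict (localRing f x) (fun s => ⟨s, rfl⟩))
    ⟨fun _ _ h => stalkToFun_injective x (congrArg Subtype.val h),
      fun ⟨_, s, hs⟩ => ⟨s, Subtype.ext hs⟩⟩

theorem exists_eq_div_of_localRing (f : X ⟶ Spec (CommRingCat.of K)) (x : X)
    (y : X.functionField) :
    ∃ a ∈ localRing f x, ∃ s ∈ localRing f x, s ≠ 0 ∧ y = a / s := by
  obtain ⟨a, b, hb, rfl⟩ := IsFractionRing.div_surjective (A := X.presheaf.stalk x) y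
  refine ⟨_, ⟨a, rfl⟩, _, ⟨b, rfl⟩, ?_, rfl⟩
  intro h0
  have h1 : b = 0 := stalkToFun_injective x (by rw [map_zero]; exact h0)
  rw [h1] at hb
  exact zero_notMem_nonZeroDivisors hb

/-- (H1) for an integral `K`-scheme with factorial local rings. -/
theorem hasDenoms (f : X ⟶ Spec (CommRingCat.of K))
    (hufd : ∀ x : X, UniqueFactorizationMonoid (X.presheaf.stalk x)) :
    letI := funAlgebra f
    HasDenoms (localRing f) := by
  let _ := funAlgebra f
  intro x y
  have : UniqueFactorizationMonoid (localRing f x) :=
    (stalkEquivLocalRing f x).toMulEquiv.uniqueFactorizationMonoid (hufd x)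
  exact exists_isDenom_of_ufd (localRing f x) (exists_eq_div_of_localRing f x) y

end Fermat.Agent.S26.D0UB.Bridge
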