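/-
S26 P7 (D0UB), bridge preparation (helper7605): (H2) noetherian affine charts for the concrete
system of local rings of a locally noetherian integral `K`-scheme.
-/
import Fermat.Agent.S26.D0UB.Bridge.System7605

set_option autoImplicit false

universe u

open CategoryTheory AlgebraicGeometry

namespace Fermat.Agent.S26.D0UB.Bridge

variable {K : Type u} [Field K] {X : Scheme.{u}} [IsIntegral X]

theorem constHom_apply_eq_germToFunctionField (f : X ⟶ Spec (CommRingCat.of K)) (U : X.Opens)
    [Nonempty U] (c : K) :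
    Center7605.constHom f c =
      X.germToFunctionField U (X.presheaf.map (homOfLE (le_top : U ≤ ⊤)).op
        (f.appTop ((Scheme.ΓSpecIso (CommRingCat.of K)).inv c))) := by
  rw [Center7605.constHom_eq]
  have h : X.presheaf.germ ⊤ (genericPoint X) trivial =
      X.presheaf.map (homOfLE (le_top : U ≤ ⊤)).op ≫ X.germToFunctionField U :=
    (TopCat.Presheaf.germ_res _ _ _ _).symm
  rw [h]
  rfl

/-- The ring of sections over a nonempty open, as a `K`-subalgebra of the function field. -/
noncomputable def chartRing (f : X ⟶ Spec (CommRingCat.of K)) (U : X.Opens) [Nonempty U] :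
    @Subalgebra K X.functionField _ _ (funAlgebra f) :=
  letI := funAlgebra f
  { (X.germToFunctionField U).hom.range with
    algebraMap_mem' := fun c => ⟨_, (constHom_apply_eq_germToFunctionField f U c).symm⟩ }

theorem mem_chartRing (f : X ⟶ Spec (CommRingCat.of K)) (U : X.Opens) [Nonempty U]
    (y : X.functionField) :
    y ∈ chartRing f U ↔ ∃ a : Γ(X, U), X.germToFunctionField U a = y := Iff.rfl

theorem isNoetherianRing_chartRing (f : X ⟶ Spec (CommRingCat.of K)) (U : X.Opens) [Nonempty U]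
    [IsNoetherianRing Γ(X, U)] : IsNoetherianRing (chartRing f U) := by
  let _ := funAlgebra f
  let φ : Γ(X, U) →+* chartRing f U :=
    (X.germToFunctionField U).hom.codRestrict (chartRing f U) (fun a => ⟨a, rfl⟩)
  refine isNoetherianRing_of_surjective Γ(X, U) (chartRing f U) φ ?_
  rintro ⟨y, a, rfl⟩
  exact ⟨a, rfl⟩

theorem chartRing_le_localRing (f : X ⟶ Spec (CommRingCat.of K)) (U : X.Opens) [Nonempty U]
    {x : X} (hx : x ∈ U) : chartRing f U ≤ localRing f x := by
  rintro y ⟨a, rfl⟩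
  exact ⟨X.presheaf.germ U x hx a, stalkToFun_germ hx a⟩

theorem exists_eq_mul_inv_of_mem_localRing (f : X ⟶ Spec (CommRingCat.of K)) {U : X.Opens}
    (hU : IsAffineOpen U) [Nonempty U] {x : X} (hx : x ∈ U) {y : X.functionField}
    (hy : y ∈ localRing f x) :
    ∃ a ∈ chartRing f U, ∃ s ∈ chartRing f U, s ≠ 0 ∧ s⁻¹ ∈ localRing f x ∧ y = a * s⁻¹ := by
  obtain ⟨t, rfl⟩ := hy
  let _ := X.presheaf.algebra_section_stalk ⟨x, hx⟩
  have hloc := hU.isLocalization_stalk ⟨x, hx⟩
  obtain ⟨⟨a₀, s₀⟩, h⟩ := IsLocalization.surj (hU.primeIdealOf ⟨x, hx⟩).asIdeal.primeCompl t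
  have hunit : IsUnit (X.presheaf.germ U x hx (s₀ : Γ(X, U))) :=
    IsLocalization.map_units (X.presheaf.stalk x) s₀
  have h' : t * X.presheaf.germ U x hx (s₀ : Γ(X, U)) = X.presheaf.germ U x hx a₀ := h
  obtain ⟨v, hv⟩ := hunit.exists_right_inv
  have h1 : stalkToFun x t * X.germToFunctionField U (s₀ : Γ(X, U)) =
      X.germToFunctionField U a₀ := by
    rw [← stalkToFun_germ hx, ← stalkToFun_germ hx, ← map_mul, h']
  have h2 : X.germToFunctionField U (s₀ : Γ(X, U)) * stalkToFun x v = 1 := by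
    rw [← stalkToFun_germ hx, ← map_mul, hv, map_one]
  have h3 : X.germToFunctionField U (s₀ : Γ(X, U)) ≠ 0 := left_ne_zero_of_mul_eq_one h2
  refine ⟨_, ⟨a₀, rfl⟩, _, ⟨(s₀ : Γ(X, U)), rfl⟩, h3, ⟨v, ?_⟩, ?_⟩
  · exact eq_inv_of_mul_eq_one_right h2
  · rw [← h1, mul_inv_cancel_right₀ h3]

theorem inv_mem_localRing_iff (f : X ⟶ Spec (CommRingCat.of K)) {U : X.Opens} [Nonempty U]
    {x : X} (hx : x ∈ U) {b : Γ(X, U)} (hb : b ≠ 0) :
    (X.germToFunctionField U b)⁻¹ ∈ localRing f x ↔ x ∈ X.basicOpen b := by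
  have hs : X.germToFunctionField U b ≠ 0 := by
    intro h0
    apply hb
    apply Scheme.germToFunctionField_injective X U
    rw [h0, map_zero]
  rw [Scheme.mem_basicOpen X b x hx]
  constructor
  · rintro ⟨t, ht⟩
    have h1 : stalkToFun x (X.presheaf.germ U x hx b * t) = stalkToFun x 1 := by
      rw [map_mul, stalkToFun_germ hx, ht, mul_inv_cancel₀ hs, map_one]
    exact IsUnit.of_mul_eq_one _ (stalkToFun_injective x h1)
  · intro hu
    obtain ⟨t, ht⟩ := hu.exists_right_inv
    refine ⟨t, ?_⟩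
    have h1 : X.germToFunctionField U b * stalkToFun x t = 1 := by
      rw [← stalkToFun_germ hx, ← map_mul, ht, map_one]
    exact eq_inv_of_mul_eq_one_right h1

/-- (H2) for a locally noetherian integral `K`-scheme. -/
theorem hasCharts (f : X ⟶ Spec (CommRingCat.of K)) [IsLocallyNoetherian X] :
    letI := funAlgebra f
    HasCharts (localRing f) := by
  let _ := funAlgebra f
  intro x
  obtain ⟨_, ⟨U, hU, rfl⟩, hxU, -⟩ :=
    X.isBasis_affineOpens.exists_subset_of_mem_open (Set.mem_univ x) isOpen_univ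
  have : Nonempty U := ⟨⟨x, hxU⟩⟩
  have : IsNoetherianRing Γ(X, U) := IsLocallyNoetherian.component_noetherian ⟨U, hU⟩
  refine ⟨(U : Set X), chartRing f U, U.isOpen, hxU, isNoetherianRing_chartRing f U,
    fun x' hx' => ⟨chartRing_le_localRing f U hx', fun y hy =>
      exists_eq_mul_inv_of_mem_localRing f hU hx' hy⟩, ?_⟩
  rintro s ⟨b, rfl⟩
  by_cases hb : b = 0
  · have h0 : {x' | x' ∈ (U : Set X) ∧ (X.germToFunctionField U b)⁻¹ ∈ localRing f x'} =
        (U : Set X) := by
      ext x'
      simp only [Set.mem_ofPred_eq, and_iff_left_iff_imp]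
      intro _
      rw [hb, map_zero, inv_zero]
      exact (localRing f x').zero_mem
    rw [h0]
    exact U.isOpen
  · have h0 : {x' | x' ∈ (U : Set X) ∧ (X.germToFunctionField U b)⁻¹ ∈ localRing f x'} =
        (X.basicOpen b : Set X) := by
      ext x'
      constructor
      · rintro ⟨hx', h⟩
        exact (inv_mem_localRing_iff f hx' hb).mp h
      · intro h
        have hx' : x' ∈ U := X.basicOpen_le b h
        exact ⟨hx', (inv_mem_localRing_iff f hx' hb).mpr h⟩
    rw [h0]
    exact (X.basicOpen b).isOpen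

end Fermat.Agent.S26.D0UB.Bridge
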