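/-
S26 P7 (D0UB), bridge preparation (helper7605): (H3) compactness and (H5) finite generation of the
function field for the concrete system of local rings of an integral `K`-scheme.
-/
import Fermat.Agent.S26.D0UB.Bridge.Charts7605

set_option autoImplicit false

universe u

open CategoryTheory AlgebraicGeometry

namespace Fermat.Agent.S26.D0UB.Bridge

variable {K : Type u} [Field K] {X : Scheme.{u}} [IsIntegral X]

omit [IsIntegral X] in
/-- (H3) a quasi-compact `K`-scheme is a compact space. -/
theorem compactSpace (f : X ⟶ Spec (CommRingCat.of K)) [QuasiCompact f] : CompactSpace X :=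
  QuasiCompact.compactSpace_of_compactSpace f

theorem germToFunctionField_appLE (f : X ⟶ Spec (CommRingCat.of K)) (U : X.Opens) [Nonempty U]
    (e : U ≤ f ⁻¹ᵁ ⊤) (r : Γ(Spec (CommRingCat.of K), ⊤)) :
    X.germToFunctionField U (f.appLE ⊤ U e r) =
      Center7605.constHom f ((Scheme.ΓSpecIso (CommRingCat.of K)).hom r) := by
  rw [constHom_apply_eq_germToFunctionField f U]
  have h : (Scheme.ΓSpecIso (CommRingCat.of K)).inv ((Scheme.ΓSpecIso (CommRingCat.of K)).hom r)
      = r := by
    rw [← CommRingCat.comp_apply, Iso.hom_inv_id]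
    rfl
  rw [h]
  rfl

/-- (H5) the function field of an integral `K`-scheme locally of finite type is a finitely
generated field extension of `K`. -/
theorem exists_finset_adjoin_eq_top (f : X ⟶ Spec (CommRingCat.of K)) [LocallyOfFiniteType f] :
    letI := funAlgebra f
    ∃ S : Finset X.functionField, IntermediateField.adjoin K (S : Set X.functionField) = ⊤ := by
  let _ := funAlgebra f
  classical
  obtain ⟨x⟩ : Nonempty X := inferInstance
  obtain ⟨_, ⟨U, hU, rfl⟩, hxU, -⟩ :=
    X.isBasis_affineOpens.exists_subset_of_mem_open (Set.mem_univ x) isOpen_univ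
  have : Nonempty U := ⟨⟨x, hxU⟩⟩
  have e : U ≤ f ⁻¹ᵁ ⊤ := fun _ _ => trivial
  have hft : (f.appLE ⊤ U e).hom.FiniteType :=
    LocallyOfFiniteType.finiteType_appLE f (isAffineOpen_top _) hU e
  obtain ⟨T, hT⟩ := hft
  refine ⟨T.image (X.germToFunctionField U), ?_⟩
  rw [Finset.coe_image]
  have hB : ∀ b : Γ(X, U), X.germToFunctionField U b ∈
      IntermediateField.adjoin K (X.germToFunctionField U '' (T : Set Γ(X, U))) := by
    intro b
    let _ := (f.appLE ⊤ U e).hom.toAlgebra
    have hb : b ∈ Algebra.adjoin Γ(Spec (CommRingCat.of K), ⊤) (T : Set Γ(X, U)) := by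
      rw [hT]
      exact Algebra.mem_top
    induction hb using Algebra.adjoin_induction with
    | mem b hb => exact IntermediateField.subset_adjoin K _ ⟨b, hb, rfl⟩
    | algebraMap r =>
      have h1 : X.germToFunctionField U (algebraMap Γ(Spec (CommRingCat.of K), ⊤) Γ(X, U) r) =
          algebraMap K X.functionField ((Scheme.ΓSpecIso (CommRingCat.of K)).hom r) :=
        germToFunctionField_appLE f U e r
      rw [h1]
      exact IntermediateField.algebraMap_mem _ _
    | add a b _ _ ha hb =>
      rw [map_add]
      exact add_mem ha hb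
    | mul a b _ _ ha hb =>
      rw [map_mul]
      exact mul_mem ha hb
  have hfr := functionField_isFractionRing_of_isAffineOpen X U hU
  rw [eq_top_iff]
  intro y _
  obtain ⟨a, b, -, rfl⟩ := IsFractionRing.div_surjective (A := Γ(X, U)) y
  exact div_mem (hB a) (hB b)

end Fermat.Agent.S26.D0UB.Bridge
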