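/-
S26 P7 (D0UB), bridge (helper1456): the CONCRETE export of the package in the language of the
lead's `Defs.lean` (`Fam`, `localRing`, `LSpace`, `pullFun`, `Fam.pullback`).

Inputs (verbatim copies, all complete proofs): the abstract leaves L0..L6 of helper436's skeleton
(`exists_D0`), helper7605's bridge files for H1..H5 (`Bridge/{System,Charts,Gens,Denoms}7605`),
helper2384's `pullFun` API, and `Bridge/Invol1456` (H6).

Main statements (`s : X ⟶ Spec K` proper, `X` integral with factorial local rings,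
`φ : X ⟶ X` an involution over `Spec K`, e.g. `φ = [-1]` on an abelian variety):

* `exists_eqn` : instance-free form, local equations `e : X → K(X)`.
* `exists_D0_fam` : `∃ D0 : Fam X, D0.IsCartier ∧ D0.IsEffective ∧ Fam.pullback φ D0 = D0 ∧ (BA) ∧
  (valuative bound)`, with (BA) and the valuative bound stated for the spaces `LSpace s (D0 ^ k)`.
-/
import Fermat.Agent.S26.D0UB.Assemble
import Fermat.Agent.S26.D0UB.Bridge.Gens7605
import Fermat.Agent.S26.D0UB.Bridge.Denoms7605
import Fermat.Agent.S26.D0UB.Bridge.Invol1456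

set_option autoImplicit false

universe u

open CategoryTheory AlgebraicGeometry

namespace Fermat.Agent.S26.D0UB.Concrete1456

open Fermat.Agent.S26 Fermat.Agent.S26.DIV.H2384

noncomputable section

variable {K : Type u} [Field K] {X : Scheme.{u}} [IsIntegral X]

/-- helper7605's constant map is the lead's `constHom`. -/
theorem center_constHom_eq (s : X ⟶ Spec (CommRingCat.of K)) (c : K) :
    (Center7605.constHom s).hom c = constHom s c := by
  rw [Center7605.constHom_eq]
  rfl

/-- Instance-free form of the concrete export: local equations `e x` of a symmetric effective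
Cartier divisor with (BA) and the valuative bound. -/
theorem exists_eqn (s : X ⟶ Spec (CommRingCat.of K)) [UniversallyClosed s]
    [LocallyOfFiniteType s] [IsLocallyNoetherian X]
    (hufd : ∀ x : X, UniqueFactorizationMonoid (X.presheaf.stalk x))
    (φ : X ⟶ X) (hφs : φ ≫ s = s) (hφφ : φ ≫ φ = 𝟙 X) :
    ∃ e : X → X.functionField,
      (∀ x, e x ≠ 0) ∧ (∀ x, e x ∈ localRing X x) ∧
      (∀ x, ∃ V : Set X, IsOpen V ∧ x ∈ V ∧
        ∀ x' ∈ V, e x / e x' ∈ localRing X x' ∧ e x' / e x ∈ localRing X x') ∧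
      (∀ x, pullFun φ (e (φ.base x)) = e x) ∧
      (∀ u : X.functionField, ∃ (k : ℕ) (s1 s2 : X.functionField),
        (∀ x, s1 * e x ^ k ∈ localRing X x) ∧ (∀ x, s2 * e x ^ k ∈ localRing X x) ∧
          s2 ≠ 0 ∧ u = s1 / s2) ∧
      (∃ (r : ℕ) (h : Fin r → X.functionField), (∀ j, h j ≠ 0) ∧
        ∀ Ov : ValuationSubring X.functionField, (∀ c : K, constHom s c ∈ Ov) →
          ∃ j, h j ∈ Ov ∧ ∀ (k : ℕ) (f : X.functionField),
            (∀ x, f * e x ^ k ∈ localRing X x) → f * h j ^ k ∈ Ov) := by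
  let _ := Bridge.funAlgebra s
  have hιι := Invol1456.base_base φ hφφ
  let σ : X.functionField ≃ₐ[K] X.functionField :=
    AlgEquiv.ofRingEquiv (f := Invol1456.pullEquiv φ hφφ) (fun c => by
      show pullFun φ ((Center7605.constHom s).hom c) = (Center7605.constHom s).hom c
      rw [center_constHom_eq]
      exact Invol1456.pullFun_constHom s s φ hφs c)
  obtain ⟨S, hS⟩ := Bridge.exists_finset_adjoin_eq_top s
  have := Bridge.compactSpace s
  obtain ⟨e, he, hsym, hBA, hVB⟩ := exists_D0 (Bridge.localRing s) (Bridge.hasDenoms s hufd)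
    (Bridge.hasCharts s) (Bridge.hasCenters s) S hS (fun x => φ.base x)
    (Invol1456.continuous_base φ) hιι σ (fun y => Invol1456.pullFun_pullFun φ hφφ y)
    (fun x y hy => Invol1456.pullFun_mem φ x hy)
  refine ⟨e, he.ne_zero, he.mem, he.coh, hsym, ?_, ?_⟩
  · intro u
    obtain ⟨k, s1, s2, h1, h2, h3, h4⟩ := hBA u
    exact ⟨k, s1, s2, h1, h2, h3, h4⟩
  · obtain ⟨r, h, hne, hv⟩ := hVB
    refine ⟨r, h, hne, fun Ov hOv => ?_⟩
    obtain ⟨j, hj, hjk⟩ := hv Ov (fun c => by
      show (Center7605.constHom s).hom c ∈ Ov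
      rw [center_constHom_eq]
      exact hOv c)
    exact ⟨j, hj, fun k f hf => hjk k f hf⟩

/-- **Concrete export of P7** in the lead's vocabulary: on a proper integral `K`-scheme with
factorial local rings and an involution `φ` over `K` there is a `φ`-symmetric effective Cartier
divisor `D0` (family of local equations) such that every rational function is a quotient of two
elements of some `L(k D0)` (BA), together with the valuative bound for the spaces `L(k D0)`
(the geometric input of UBALG). -/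
theorem exists_D0_fam (s : X ⟶ Spec (CommRingCat.of K)) [UniversallyClosed s]
    [LocallyOfFiniteType s] [IsLocallyNoetherian X]
    (hufd : ∀ x : X, UniqueFactorizationMonoid (X.presheaf.stalk x))
    (φ : X ⟶ X) (hφs : φ ≫ s = s) (hφφ : φ ≫ φ = 𝟙 X) :
    ∃ D0 : Fam X, D0.IsCartier ∧ D0.IsEffective ∧ Fam.pullback φ D0 = D0 ∧
      (∀ u : FF s, ∃ (k : ℕ) (s1 s2 : FF s),
        s1 ∈ LSpace s (D0 ^ k) ∧ s2 ∈ LSpace s (D0 ^ k) ∧ s2 ≠ 0 ∧ u = s1 / s2) ∧
      (∃ (r : ℕ) (h : Fin r → FF s), (∀ j, h j ≠ 0) ∧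
        ∀ Ov : ValuationSubring (FF s), (∀ c : K, algebraMap K (FF s) c ∈ Ov) →
          ∃ j, h j ∈ Ov ∧ ∀ (k : ℕ), ∀ f ∈ LSpace s (D0 ^ k), f * h j ^ k ∈ Ov) := by
  obtain ⟨e, hne, hmem, hcoh, hsym, hBA, hVB⟩ := exists_eqn s hufd φ hφs hφφ
  have hval : ∀ (k : ℕ) (x : X),
      ((((fun x => Units.mk0 (e x) (hne x) : Fam X) ^ k) x : (X.functionField)ˣ) :
        X.functionField) = e x ^ k := by
    intro k x
    rw [Pi.pow_apply, Units.val_pow_eq_pow_val, Units.val_mk0]
  refine ⟨fun x => Units.mk0 (e x) (hne x), ?_, ?_, ?_, ?_, ?_⟩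
  · intro x
    obtain ⟨V, hV, hxV, h⟩ := hcoh x
    refine ⟨⟨V, hV⟩, hxV, fun y hy => ?_⟩
    obtain ⟨h1, h2⟩ := h y hy
    have hd : (((Units.mk0 (e y) (hne y) / Units.mk0 (e x) (hne x) : (X.functionField)ˣ)) :
        X.functionField) = e y / e x := by
      rw [Units.val_div_eq_div_val, Units.val_mk0, Units.val_mk0]
    refine ⟨?_, ?_⟩
    · rw [hd]; exact h2
    · rw [hd, inv_div]; exact h1
  · intro x
    exact hmem x
  · funext y
    show toUnit (pullFun φ (e (φ.base y))) = Units.mk0 (e y) (hne y)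
    rw [hsym y]
    unfold toUnit
    rw [dif_neg (hne y)]
  · intro u
    obtain ⟨k, s1, s2, h1, h2, h3, h4⟩ := hBA u
    refine ⟨k, s1, s2, ?_, ?_, h3, h4⟩
    · intro x
      show s1 * _ ∈ localRing X x
      rw [hval k x]; exact h1 x
    · intro x
      show s2 * _ ∈ localRing X x
      rw [hval k x]; exact h2 x
  · obtain ⟨r, h, hh, hv⟩ := hVB
    refine ⟨r, h, hh, fun Ov hOv => ?_⟩
    obtain ⟨j, hj, hjk⟩ := hv Ov hOv
    refine ⟨j, hj, fun k f hf => hjk k f (fun x => ?_)⟩
    have := hf x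
    rw [hval k x] at this
    exact this

/-- Variant for a proper morphism (all instances derived). -/
theorem exists_D0_fam_of_isProper (s : X ⟶ Spec (CommRingCat.of K)) [IsProper s]
    (hufd : ∀ x : X, UniqueFactorizationMonoid (X.presheaf.stalk x))
    (φ : X ⟶ X) (hφs : φ ≫ s = s) (hφφ : φ ≫ φ = 𝟙 X) :
    ∃ D0 : Fam X, D0.IsCartier ∧ D0.IsEffective ∧ Fam.pullback φ D0 = D0 ∧
      (∀ u : FF s, ∃ (k : ℕ) (s1 s2 : FF s),
        s1 ∈ LSpace s (D0 ^ k) ∧ s2 ∈ LSpace s (D0 ^ k) ∧ s2 ≠ 0 ∧ u = s1 / s2) ∧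
      (∃ (r : ℕ) (h : Fin r → FF s), (∀ j, h j ≠ 0) ∧
        ∀ Ov : ValuationSubring (FF s), (∀ c : K, algebraMap K (FF s) c ∈ Ov) →
          ∃ j, h j ∈ Ov ∧ ∀ (k : ℕ), ∀ f ∈ LSpace s (D0 ^ k), f * h j ^ k ∈ Ov) := by
  have : IsLocallyNoetherian X := LocallyOfFiniteType.isLocallyNoetherian s
  exact exists_D0_fam s hufd φ hφs hφφ

end

end Fermat.Agent.S26.D0UB.Concrete1456
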