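/-
S26 P7 (D0UB), bridge piece (helper1456): hypothesis (H6) of `exists_D0` for an involution
`φ : X ⟶ X` (`φ ≫ φ = 𝟙 X`) of an integral scheme, in the language of the lead's `Defs.lean`
(`localRing`, `pullFun`, `constHom`) on top of helper2384's `pullFun` API.

* `Invol1456.map_genericPoint` : `φ η = η`.
* `Invol1456.base_base`, `Invol1456.continuous_base` : `ι := φ.base` is a continuous involution.
* `Invol1456.pullEquiv` : `σ := φ^* : K(X) ≃+* K(X)` with `pullEquiv_apply : σ u = pullFun φ u`.
* `Invol1456.pullFun_pullFun` : `σ (σ u) = u`.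
* `Invol1456.pullFun_mem` : `u ∈ 𝒪_{φ x} → σ u ∈ 𝒪_x`  (this is `hσO`).
* `Invol1456.pullFun_constHom` : `σ` fixes the constants if `φ` is a morphism over `Spec K`.
-/
import Fermat.Agent.S26.DIV.PullFun_h2384

set_option autoImplicit false

universe u

open CategoryTheory AlgebraicGeometry

namespace Fermat.Agent.S26.D0UB.Invol1456

open Fermat.Agent.S26 Fermat.Agent.S26.DIV.H2384

noncomputable section

variable {X : Scheme.{u}} [IsIntegral X]

/-- `ι := φ.base` is an involution on points. -/
theorem base_base (φ : X ⟶ X) (hφφ : φ ≫ φ = 𝟙 X) (x : X) : φ.base (φ.base x) = x := by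
  have h : (φ ≫ φ).base x = (𝟙 X : X ⟶ X).base x := by rw [hφφ]
  exact h

theorem continuous_base (φ : X ⟶ X) : Continuous (fun x : X => φ.base x) :=
  φ.base.hom.continuous

/-- An involution fixes the generic point. -/
theorem map_genericPoint (φ : X ⟶ X) (hφφ : φ ≫ φ = 𝟙 X) :
    φ.base (genericPoint X) = genericPoint X := by
  have h1 : genericPoint X ⤳ φ.base (genericPoint X) := _root_.genericPoint_specializes _
  have h2 : φ.base (genericPoint X) ⤳ φ.base (φ.base (genericPoint X)) :=
    φ.base.hom.map_specializes h1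
  rw [base_base φ hφφ] at h2
  exact (h1.antisymm h2).symm.eq

/-- `σ (σ u) = u`. -/
theorem pullFun_pullFun (φ : X ⟶ X) (hφφ : φ ≫ φ = 𝟙 X) (u : X.functionField) :
    pullFun φ (pullFun φ u) = u := by
  have hu : u ∈ localRing X (φ.base (φ.base (genericPoint X))) := by
    rw [base_base φ hφφ, localRing_genericPoint]; trivial
  rw [← pullFun_comp φ φ hu]
  have h : pullFun (φ ≫ φ) u = pullFun (𝟙 X) u := by rw [hφφ]
  rw [h, pullFun_id]

/-- The automorphism `σ = φ^*` of the function field. -/
def pullEquiv (φ : X ⟶ X) (hφφ : φ ≫ φ = 𝟙 X) : X.functionField ≃+* X.functionField :=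
  RingEquiv.ofRingHom (pullHom φ (map_genericPoint φ hφφ)) (pullHom φ (map_genericPoint φ hφφ))
    (RingHom.ext fun u => pullFun_pullFun φ hφφ u) (RingHom.ext fun u => pullFun_pullFun φ hφφ u)

@[simp]
theorem pullEquiv_apply (φ : X ⟶ X) (hφφ : φ ≫ φ = 𝟙 X) (u : X.functionField) :
    pullEquiv φ hφφ u = pullFun φ u := rfl

/-- `σ` maps the local ring at `φ x` into the local ring at `x` (hypothesis `hσO` of H6). -/
theorem pullFun_mem (φ : X ⟶ X) (x : X) {u : X.functionField}
    (hu : u ∈ localRing X (φ.base x)) : pullFun φ u ∈ localRing X x :=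
  pullFun_mem_localRing φ x hu

/-- ... and in fact onto it. -/
theorem pullFun_mem_iff (φ : X ⟶ X) (hφφ : φ ≫ φ = 𝟙 X) (x : X) (u : X.functionField) :
    pullFun φ u ∈ localRing X x ↔ u ∈ localRing X (φ.base x) := by
  refine ⟨fun h => ?_, pullFun_mem φ x⟩
  have h' : pullFun φ u ∈ localRing X (φ.base (φ.base x)) := by rwa [base_base φ hφφ]
  have := pullFun_mem φ (φ.base x) h'
  rwa [pullFun_pullFun φ hφφ] at this

variable {K : Type u} [Field K]

/-- Pullback of a constant along a morphism over `Spec K` is the same constant. -/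
theorem pullFun_constHom {Y : Scheme.{u}} [IsIntegral Y] (s : X ⟶ Spec (CommRingCat.of K))
    (t : Y ⟶ Spec (CommRingCat.of K)) (φ : Y ⟶ X) (hφ : φ ≫ s = t) (c : K) :
    pullFun φ (constHom s c) = constHom t c := by
  subst hφ
  set r := (Scheme.ΓSpecIso (CommRingCat.of K)).inv.hom c with hr
  have h1 : constHom s c = algebraMap (X.presheaf.stalk (φ.base (genericPoint Y))) X.functionField
      (X.presheaf.germ ⊤ (φ.base (genericPoint Y)) trivial (s.appTop.hom r)) :=
    (Scheme.algebraMap_germ_eq_germToFunctionField X (U := ⊤) trivial _).symm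
  rw [h1, pullFun_algebraMap]
  have h2 := Scheme.Hom.germ_stalkMap_apply φ (⊤ : X.Opens) (genericPoint Y) trivial
    (s.appTop.hom r)
  refine h2.trans ?_
  show _ = (Y.germToFunctionField ⊤).hom ((φ ≫ s).appTop.hom r)
  rfl

end

end Fermat.Agent.S26.D0UB.Invol1456
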